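import Fermat.Agent.RothProgressions.Increment
import Mathlib.Analysis.SpecialFunctions.Log.Basic

/-!
# Roth's bound

By induction on `N`: the increment raises the density `α` by `α ^ 2 / 96`, so lowers `1 / α` by
`1 / 97`, while `log N` at most halves, up to `O (1 / α)`.
-/

set_option autoImplicit false

noncomputable section

namespace FA.RothProgressions

open Finset

theorem log_le_exp {A : Finset ℕ} : ∀ {N : ℕ}, A ⊆ range N → ThreeAPFree (A : Set ℕ) →
    A.Nonempty → Real.log N ≤ Real.exp (194 * ((N : ℝ) / #A)) := by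
  intro N
  induction N using Nat.strong_induction_on generalizing A with
  | _ N ih =>
    intro hA h3 hne
    have hA0 : (0 : ℝ) < #A := Nat.cast_pos.2 hne.card_pos
    have hAN : (#A : ℝ) ≤ N := by exact_mod_cast (card_le_card hA).trans_eq (card_range N)
    have hN0 : (0 : ℝ) < N := hA0.trans_le hAN
    obtain ⟨α, hαdef⟩ : ∃ α : ℝ, α = (#A : ℝ) / N := ⟨_, rfl⟩
    rw [show (N : ℝ) / #A = 1 / α by rw [hαdef, one_div_div]]
    have hα0 : 0 < α := by rw [hαdef]; positivity
    have hα1 : α ≤ 1 := by rw [hαdef, div_le_one hN0]; exact hAN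
    have hi1 : 1 ≤ 1 / α := (one_le_div hα0).2 hα1
    have hlog2 : Real.log 2 ≤ 1 := by
      rw [← Real.log_exp 1]
      exact Real.log_le_log two_pos (by linarith [Real.add_one_le_exp 1])
    have hlogα : -Real.log α ≤ 1 / α := by
      rw [← Real.log_inv, inv_eq_one_div]
      exact (Real.log_le_sub_one_of_pos (by positivity)).trans (by linarith)
    have hbase : ∀ X : ℝ, X ≤ 24 * (1 / α) → X ≤ Real.exp (194 * (1 / α)) := fun X hX => by
      linarith [Real.add_one_le_exp (194 * (1 / α))]
    rcases lt_or_ge (α ^ 3 * Real.sqrt N) 512 with hsmall | hlarge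
    · refine hbase _ ?_
      have h1 := Real.log_lt_log (mul_pos (pow_pos hα0 3) (Real.sqrt_pos.2 hN0)) hsmall
      rw [Real.log_mul (pow_pos hα0 3).ne' (Real.sqrt_pos.2 hN0).ne', Real.log_pow,
        Real.log_sqrt hN0.le, show (512 : ℝ) = 2 ^ 9 by norm_num, Real.log_pow] at h1
      push_cast at h1
      linarith
    rcases le_or_gt ((#A : ℝ) ^ 2) (4 * N) with hfew | hbig
    · refine hbase _ ?_
      have h2 : α ^ 2 * N ≤ 4 := by
        rw [hαdef]
        field_simp
        linarith
      have h1 := Real.log_le_log (mul_pos (pow_pos hα0 2) hN0) h2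
      rw [Real.log_mul (pow_pos hα0 2).ne' hN0.ne', Real.log_pow,
        show (4 : ℝ) = 2 ^ 2 by norm_num, Real.log_pow] at h1
      push_cast at h1
      linarith
    obtain ⟨L, hLdef⟩ : ∃ L : ℕ, L = ⌊α ^ 3 * Real.sqrt N / 256⌋₊ := ⟨_, rfl⟩
    have hx : 2 ≤ α ^ 3 * Real.sqrt N / 256 := by linarith
    have hL1 : 1 ≤ L := hLdef ▸ (Nat.one_le_floor_iff _).2 (by linarith)
    have hLle : (L : ℝ) ≤ α ^ 3 * Real.sqrt N / 256 := hLdef ▸ Nat.floor_le (by linarith)
    have hLge : α ^ 3 * Real.sqrt N / 512 ≤ L := by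
      have := Nat.lt_floor_add_one (α ^ 3 * Real.sqrt N / 256)
      rw [← hLdef] at this
      linarith
    obtain ⟨A', hA', h3', hcard⟩ := exists_increment hA h3 (Nat.cast_pos.1 hN0) hL1 hbig
      (hαdef ▸ hLle)
    rw [← hαdef] at hcard
    have hLN : L < N := by
      have hs : Real.sqrt N ≤ N := by
        rw [Real.sqrt_le_iff]
        have h1 : (1 : ℝ) ≤ N := Nat.one_le_cast.2 (Nat.cast_pos.1 hN0)
        exact ⟨hN0.le, by nlinarith⟩
      have h1 : α ^ 3 * Real.sqrt N ≤ N :=
        (mul_le_of_le_one_left (Real.sqrt_nonneg _) (pow_le_one₀ hα0.le hα1)).trans hs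
      have : (L : ℝ) < N := by linarith
      exact_mod_cast this
    have hL0 : (0 : ℝ) < L := Nat.cast_pos.2 hL1
    have hα'0 : 0 < α + α ^ 2 / 96 := by positivity
    have hne' : A'.Nonempty := card_pos.1 (Nat.cast_pos.1
      (lt_of_lt_of_le (mul_pos hα'0 hL0) hcard))
    have h := ih L hLN hA' h3' hne'
    have hdrop : (L : ℝ) / #A' ≤ 1 / α - 1 / 97 := by
      refine (div_le_div_of_nonneg_left hL0.le (mul_pos hα'0 hL0) hcard).trans ?_
      rw [div_mul_cancel_right₀ hL0.ne', le_sub_iff_add_le, inv_eq_one_div,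
        div_add_div _ _ hα'0.ne' (by norm_num), div_le_div_iff₀ (by positivity) hα0]
      nlinarith [sq_nonneg α, mul_nonneg (sq_nonneg α) (sub_nonneg.2 hα1)]
    have hF : Real.log L ≤ Real.exp (194 * (1 / α)) / 4 := by
      refine h.trans ?_
      have e4 : (4 : ℝ) ≤ Real.exp 2 := by
        have := Real.quadratic_le_exp_of_nonneg (show (0 : ℝ) ≤ 2 by norm_num)
        linarith
      rw [le_div_iff₀ (by norm_num : (0 : ℝ) < 4)]
      calc Real.exp (194 * ((L : ℝ) / #A')) * 4
          ≤ Real.exp (194 * ((L : ℝ) / #A')) * Real.exp 2 := by gcongr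
        _ ≤ Real.exp (194 * (1 / α)) := by
            rw [← Real.exp_add]
            exact Real.exp_le_exp.2 (by linarith)
    have h1 := Real.log_le_log (by positivity) hLge
    rw [Real.log_div (by positivity) (by norm_num), Real.log_mul (pow_pos hα0 3).ne'
      (Real.sqrt_pos.2 hN0).ne', Real.log_pow, Real.log_sqrt hN0.le,
      show (512 : ℝ) = 2 ^ 9 by norm_num, Real.log_pow] at h1
    push_cast at h1
    linarith [Real.add_one_le_exp (194 * (1 / α))]

theorem rothNumberNat_mul_loglog_le {N : ℕ} (hN : 3 ≤ N) :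
    (rothNumberNat N : ℝ) * Real.log (Real.log N) ≤ 194 * N := by
  obtain ⟨t, ht, hcard, hfree⟩ := rothNumberNat_spec N
  rw [← hcard]
  rcases t.eq_empty_or_nonempty with rfl | hne
  · simp
  have h := log_le_exp ht hfree hne
  have hlog : 0 < Real.log N := Real.log_pos (by exact_mod_cast (show 1 < N by omega))
  have h2 := Real.log_le_log hlog h
  rw [Real.log_exp] at h2
  have hc : (0 : ℝ) < #t := Nat.cast_pos.2 hne.card_pos
  calc (#t : ℝ) * Real.log (Real.log N) ≤ (#t : ℝ) * (194 * ((N : ℝ) / #t)) :=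
        mul_le_mul_of_nonneg_left h2 hc.le
    _ = 194 * N := by field_simp

end FA.RothProgressions
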