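import Fermat.Agent.ThreePrimes.Exponential
import Mathlib.Combinatorics.Additive.AP.Three.Defs

/-!
# Three-term progressions and exponential sums

For `a, b, c < N` the equation `a + c = 2 b` holds modulo `2 N + 1` only if it holds, so the count
of progressions is a mean of products of three exponential sums. A set of density `α` without a
progression hence has an exponential sum of its balanced function of size `≫ α ^ 2 N`.
-/

set_option autoImplicit false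

noncomputable section

namespace FA.RothProgressions

open Finset
open FA.ThreePrimes (eAdd eAdd_add eAdd_zero norm_eAdd eAdd_intCast eAdd_nat_mul conj_eAdd)
open scoped ComplexConjugate

/-- The exponential sum of `F` on `[0, N)`. -/
def expSum (N : ℕ) (F : ℕ → ℝ) (θ : ℝ) : ℂ := ∑ n ∈ range N, (F n : ℂ) * eAdd ((n : ℝ) * θ)

/-- The weighted number of solutions of `a + c = 2 b` in `[0, N)`. -/
def triple (N : ℕ) (F G H : ℕ → ℝ) : ℝ :=
  ∑ a ∈ range N, ∑ b ∈ range N, ∑ c ∈ range N, if a + c = 2 * b then F a * G b * H c else 0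

theorem sum_eAdd_div {q : ℕ} (hq : 0 < q) (m : ℤ) :
    ∑ r ∈ range q, eAdd ((r : ℝ) * ((m : ℝ) / q)) = if (q : ℤ) ∣ m then (q : ℂ) else 0 := by
  have hq' : (q : ℝ) ≠ 0 := Nat.cast_ne_zero.2 hq.ne'
  have hpow : eAdd ((m : ℝ) / q) ^ q = 1 := by
    rw [← eAdd_nat_mul, mul_div_cancel₀ _ hq', eAdd_intCast]
  simp only [eAdd_nat_mul]
  split_ifs with h
  · obtain ⟨k, rfl⟩ := h
    rw [Int.cast_mul, Int.cast_natCast, mul_div_cancel_left₀ _ hq', eAdd_intCast]
    simp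
  · rw [geom_sum_eq, hpow, sub_self, zero_div]
    intro h1
    rw [FA.ThreePrimes.eAdd, Complex.exp_eq_one_iff] at h1
    obtain ⟨k, hk⟩ := h1
    have hk2 : 2 * Real.pi * ((m : ℝ) / q) = (k : ℝ) * (2 * Real.pi) := by
      refine Complex.ofReal_injective (mul_right_cancel₀ Complex.I_ne_zero (hk.trans ?_))
      push_cast
      ring
    have h2 : (m : ℝ) = q * k := by
      have hπ := Real.pi_pos.ne'
      field_simp at hk2
      linarith
    exact h ⟨k, by exact_mod_cast h2⟩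

theorem dvd_sub_two_mul_iff {N a b c : ℕ} (ha : a < N) (hb : b < N) (hc : c < N) :
    ((2 * N + 1 : ℕ) : ℤ) ∣ (a : ℤ) + c - 2 * b ↔ a + c = 2 * b := by
  constructor
  · intro h
    have := Int.eq_zero_of_dvd_of_natAbs_lt_natAbs h (by omega)
    omega
  · intro h
    rw [show (a : ℤ) + c - 2 * b = 0 by omega]
    exact dvd_zero _

theorem triple_eq (N : ℕ) (F G H : ℕ → ℝ) :
    ((2 * N + 1 : ℕ) : ℂ) * (triple N F G H : ℂ) = ∑ r ∈ range (2 * N + 1),
      expSum N F ((r : ℝ) / (2 * N + 1 : ℕ)) * expSum N G (-2 * (r : ℝ) / (2 * N + 1 : ℕ)) *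
        expSum N H ((r : ℝ) / (2 * N + 1 : ℕ)) := by
  obtain ⟨q, hq⟩ : ∃ q, q = 2 * N + 1 := ⟨_, rfl⟩
  rw [← hq]
  have hexp : ∀ r : ℕ, expSum N F ((r : ℝ) / q) * expSum N G (-2 * (r : ℝ) / q) *
      expSum N H ((r : ℝ) / q) = ∑ a ∈ range N, ∑ b ∈ range N, ∑ c ∈ range N,
        ((F a * G b * H c : ℝ) : ℂ) *
          eAdd ((r : ℝ) * ((((a : ℤ) + c - 2 * b : ℤ) : ℝ) / q)) := by
    intro r
    rw [expSum, expSum, expSum, sum_mul_sum, sum_mul]
    refine sum_congr rfl fun a _ => ?_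
    rw [sum_mul]
    refine sum_congr rfl fun b _ => ?_
    rw [mul_sum]
    refine sum_congr rfl fun c _ => ?_
    rw [show (r : ℝ) * ((((a : ℤ) + c - 2 * b : ℤ) : ℝ) / q) =
      (a : ℝ) * ((r : ℝ) / q) + (b : ℝ) * (-2 * (r : ℝ) / q) + (c : ℝ) * ((r : ℝ) / q) by
      push_cast; ring, eAdd_add, eAdd_add]
    push_cast
    ring
  rw [sum_congr rfl fun r _ => hexp r, triple]
  simp only [Complex.ofReal_sum, mul_sum]
  conv_rhs => rw [sum_comm]
  refine sum_congr rfl fun a ha => ?_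
  conv_rhs => rw [sum_comm]
  refine sum_congr rfl fun b hb => ?_
  conv_rhs => rw [sum_comm]
  refine sum_congr rfl fun c hc => ?_
  rw [← mul_sum, sum_eAdd_div (by omega) ((a : ℤ) + c - 2 * b)]
  simp only [hq, dvd_sub_two_mul_iff (mem_range.1 ha) (mem_range.1 hb) (mem_range.1 hc)]
  split_ifs
  · ring
  · simp

theorem sum_norm_expSum_sq (N : ℕ) (G : ℕ → ℝ) {q : ℕ} (hq : 0 < q) (hNq : N ≤ q) (k : ℤ)
    (hk : ∀ m : ℤ, (q : ℤ) ∣ k * m → (q : ℤ) ∣ m) :
    ∑ r ∈ range q, ‖expSum N G ((k : ℝ) * r / q)‖ ^ 2 = q * ∑ n ∈ range N, G n ^ 2 := by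
  have h : ∑ r ∈ range q, expSum N G ((k : ℝ) * r / q) * conj (expSum N G ((k : ℝ) * r / q)) =
      (((q : ℝ) * ∑ n ∈ range N, G n ^ 2 : ℝ) : ℂ) := by
    simp only [expSum, map_sum, map_mul, Complex.conj_ofReal, conj_eAdd, sum_mul_sum]
    rw [sum_comm, mul_sum, Complex.ofReal_sum]
    refine sum_congr rfl fun a ha => ?_
    rw [sum_comm, sum_eq_single a ?_ (fun h => absurd ha h)]
    · rw [sum_congr rfl fun (r : ℕ) _ => show (G a : ℂ) * eAdd ((a : ℝ) * ((k : ℝ) * r / q)) *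
        ((G a : ℂ) * eAdd (-((a : ℝ) * ((k : ℝ) * r / q)))) = ((G a ^ 2 : ℝ) : ℂ) by
        rw [mul_mul_mul_comm, ← eAdd_add, add_neg_cancel, eAdd_zero]; push_cast; ring]
      simp
    · intro b hb hne
      rw [sum_congr rfl fun (r : ℕ) _ => show (G a : ℂ) * eAdd ((a : ℝ) * ((k : ℝ) * r / q)) *
        ((G b : ℂ) * eAdd (-((b : ℝ) * ((k : ℝ) * r / q)))) = (G a : ℂ) * G b *
          eAdd ((r : ℝ) * (((k * ((a : ℤ) - b) : ℤ) : ℝ) / q)) by
        rw [mul_mul_mul_comm, ← eAdd_add]; congr 2; push_cast; ring, ← mul_sum,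
        sum_eAdd_div hq, if_neg, mul_zero]
      intro hd
      have := Int.eq_zero_of_dvd_of_natAbs_lt_natAbs (hk _ hd)
        (by rw [mem_range] at ha hb; omega)
      omega
  simp only [Complex.mul_conj'] at h
  exact_mod_cast h

/-- Three exponential sums, one of them small. -/
theorem sum_norm_mul_le (N : ℕ) {M : ℝ} (X : ℕ → ℝ) (G H : ℕ → ℝ) (k l : ℤ)
    (hk : ∀ m : ℤ, ((2 * N + 1 : ℕ) : ℤ) ∣ k * m → ((2 * N + 1 : ℕ) : ℤ) ∣ m)
    (hl : ∀ m : ℤ, ((2 * N + 1 : ℕ) : ℤ) ∣ l * m → ((2 * N + 1 : ℕ) : ℤ) ∣ m)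
    (hX : ∀ r, X r ≤ M) (hM : 0 ≤ M) :
    ∑ r ∈ range (2 * N + 1), X r * (‖expSum N G ((k : ℝ) * r / (2 * N + 1 : ℕ))‖ *
      ‖expSum N H ((l : ℝ) * r / (2 * N + 1 : ℕ))‖) ≤
        (2 * N + 1 : ℕ) * (M * ((∑ n ∈ range N, G n ^ 2 + ∑ n ∈ range N, H n ^ 2) / 2)) := by
  refine (sum_le_sum fun r _ => mul_le_mul (hX r)
    (show _ ≤ (‖expSum N G ((k : ℝ) * r / (2 * N + 1 : ℕ))‖ ^ 2 +
      ‖expSum N H ((l : ℝ) * r / (2 * N + 1 : ℕ))‖ ^ 2) / 2 by
      linarith [two_mul_le_add_sq ‖expSum N G ((k : ℝ) * r / (2 * N + 1 : ℕ))‖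
        ‖expSum N H ((l : ℝ) * r / (2 * N + 1 : ℕ))‖]) (by positivity) hM).trans_eq ?_
  rw [← mul_sum, ← sum_div, sum_add_distrib,
    sum_norm_expSum_sq N G (by omega) (by omega) k hk,
    sum_norm_expSum_sq N H (by omega) (by omega) l hl]
  ring

theorem dvd_of_dvd_one_mul (N : ℕ) (m : ℤ) (h : ((2 * N + 1 : ℕ) : ℤ) ∣ 1 * m) :
    ((2 * N + 1 : ℕ) : ℤ) ∣ m := by rwa [one_mul] at h

theorem dvd_of_dvd_neg_two_mul (N : ℕ) (m : ℤ) (h : ((2 * N + 1 : ℕ) : ℤ) ∣ -2 * m) :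
    ((2 * N + 1 : ℕ) : ℤ) ∣ m := by
  have h1 : ((2 * N + 1 : ℕ) : ℤ) ∣ ((2 * N + 1 : ℕ) : ℤ) * m + (N : ℤ) * (-2 * m) :=
    dvd_add (dvd_mul_right _ _) (h.mul_left _)
  convert h1 using 1
  push_cast
  ring

/-- The bound on the count when one function has small exponential sums. -/
theorem abs_triple_le {N : ℕ} {F : ℕ → ℝ} {M : ℝ} (hF : ∀ θ, ‖expSum N F θ‖ ≤ M) (G H : ℕ → ℝ) :
    |triple N F G H| ≤ M * ((∑ n ∈ range N, G n ^ 2 + ∑ n ∈ range N, H n ^ 2) / 2) ∧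
      |triple N G F H| ≤ M * ((∑ n ∈ range N, G n ^ 2 + ∑ n ∈ range N, H n ^ 2) / 2) ∧
      |triple N G H F| ≤ M * ((∑ n ∈ range N, G n ^ 2 + ∑ n ∈ range N, H n ^ 2) / 2) := by
  have hM : 0 ≤ M := (norm_nonneg _).trans (hF 0)
  have hq : (0 : ℝ) < ((2 * N + 1 : ℕ) : ℝ) := Nat.cast_pos.2 (by omega)
  have key : ∀ A B C : ℕ → ℝ, |triple N A B C| * (2 * N + 1 : ℕ) ≤ ∑ r ∈ range (2 * N + 1),
      ‖expSum N A ((r : ℝ) / (2 * N + 1 : ℕ))‖ *
        ‖expSum N B (-2 * (r : ℝ) / (2 * N + 1 : ℕ))‖ *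
          ‖expSum N C ((r : ℝ) / (2 * N + 1 : ℕ))‖ := by
    intro A B C
    have h := congrArg (fun z : ℂ => ‖z‖) (triple_eq N A B C)
    simp only [norm_mul, Complex.norm_natCast, Complex.norm_real, Real.norm_eq_abs] at h
    rw [mul_comm, h]
    exact (norm_sum_le _ _).trans (sum_le_sum fun r _ => by rw [norm_mul, norm_mul])
  refine ⟨le_of_mul_le_mul_right ?_ hq, le_of_mul_le_mul_right ?_ hq, le_of_mul_le_mul_right ?_ hq⟩
  · refine (key F G H).trans (le_trans (le_of_eq (sum_congr rfl fun r _ => ?_))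
      ((sum_norm_mul_le N (fun r => ‖expSum N F ((r : ℝ) / (2 * N + 1 : ℕ))‖) G H (-2) 1
        (dvd_of_dvd_neg_two_mul N) (dvd_of_dvd_one_mul N) (fun r => hF _) hM).trans_eq
          (mul_comm _ _)))
    push_cast
    ring_nf
  · refine (key G F H).trans (le_trans (le_of_eq (sum_congr rfl fun r _ => ?_))
      ((sum_norm_mul_le N (fun r => ‖expSum N F (-2 * (r : ℝ) / (2 * N + 1 : ℕ))‖) G H 1 1
        (dvd_of_dvd_one_mul N) (dvd_of_dvd_one_mul N) (fun r => hF _) hM).trans_eq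
          (mul_comm _ _)))
    push_cast
    ring_nf
  · refine (key G H F).trans (le_trans (le_of_eq (sum_congr rfl fun r _ => ?_))
      ((sum_norm_mul_le N (fun r => ‖expSum N F ((r : ℝ) / (2 * N + 1 : ℕ))‖) G H 1 (-2)
        (dvd_of_dvd_one_mul N) (dvd_of_dvd_neg_two_mul N) (fun r => hF _) hM).trans_eq
          (mul_comm _ _)))
    push_cast
    ring_nf

theorem sq_half_le_triple_one (N : ℕ) :
    (N : ℝ) ^ 2 / 2 ≤ triple N (fun _ => 1) (fun _ => 1) (fun _ => 1) := by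
  have h1 : ∀ a ∈ range N, ∀ c ∈ range N,
      (∑ b ∈ range N, if a + c = 2 * b then (1 : ℝ) * 1 * 1 else 0) =
        if a % 2 = c % 2 then 1 else 0 := by
    intro a ha c hc
    rw [mem_range] at ha hc
    split_ifs with h
    · rw [sum_eq_single ((a + c) / 2) (fun b _ hb => if_neg (by omega))
        (fun hn => absurd (mem_range.2 (by omega)) hn), if_pos (by omega)]
      norm_num
    · exact sum_eq_zero fun b _ => if_neg (by omega)
  rw [triple]
  conv_rhs => rw [sum_congr rfl fun a _ => sum_comm]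
  rw [sum_congr rfl fun a ha => sum_congr rfl (h1 a ha)]
  obtain ⟨e, he⟩ : ∃ e : ℕ → ℕ, e = fun i => #((range N).filter fun a => a % 2 = i) := ⟨_, rfl⟩
  have hsplit : e 0 + e 1 = N := by
    rw [he]
    simp only
    rw [← card_union_of_disjoint (disjoint_filter.2 fun a _ h h' => by omega), ← filter_or,
      filter_true_of_mem fun a _ => Nat.mod_two_eq_zero_or_one a, card_range]
  have hrow : ∀ a ∈ range N, (∑ c ∈ range N, if a % 2 = c % 2 then (1 : ℝ) else 0) =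
      (e (a % 2) : ℝ) := fun a _ => by
    rw [he, sum_boole]
    simp only [eq_comm]
  rw [sum_congr rfl hrow, ← sum_fiberwise_of_maps_to (g := fun a => a % 2) (t := {0, 1})
    fun a _ => by rw [mem_insert, mem_singleton]; omega]
  rw [sum_pair zero_ne_one, sum_congr rfl fun a ha => by rw [(mem_filter.1 ha).2],
    sum_congr (s₂ := (range N).filter fun a => a % 2 = 1) rfl fun a ha => by
      rw [(mem_filter.1 ha).2], sum_const, sum_const, nsmul_eq_mul, nsmul_eq_mul,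
    show #((range N).filter fun a => a % 2 = 0) = e 0 by rw [he],
    show #((range N).filter fun a => a % 2 = 1) = e 1 by rw [he]]
  have h : (e 0 : ℝ) + e 1 = N := by exact_mod_cast hsplit
  nlinarith [sq_nonneg ((e 0 : ℝ) - e 1)]

end FA.RothProgressions
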