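import Fermat.Agent.RothProgressions.Count
import Mathlib.NumberTheory.DiophantineApproximation.Basic

/-!
# Density increment

If the balanced function has an exponential sum at `θ` of size `≫ α ^ 2 N`, Dirichlet gives `d`
with `d θ` nearly an integer; on a progression of difference `d` and length `L` the character is
nearly constant, so one of them holds `A` with density `α + α ^ 2 / 96`.
-/

set_option autoImplicit false

noncomputable section

namespace FA.RothProgressions

open Finset
open FA.ThreePrimes (eAdd eAdd_add eAdd_zero norm_eAdd eAdd_intCast eAdd_add_intCast)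

/-- The balanced function of `A ⊆ [0, N)`. -/
def balanced (A : Finset ℕ) (N : ℕ) (n : ℕ) : ℝ :=
  (if n ∈ A then 1 else 0) - (#A : ℝ) / N

theorem norm_eAdd_sub_one_le_abs (x : ℝ) : ‖eAdd x - 1‖ ≤ 2 * Real.pi * |x| := by
  have h := Complex.norm_exp_sub_one_le (x := ((2 * Real.pi * x : ℝ) : ℂ) * Complex.I)
  rw [FA.ThreePrimes.eAdd, mul_comm _ Complex.I, Complex.norm_exp_I_mul_ofReal_sub_one]
  have h2 := Real.abs_sin_le_abs (x := 2 * Real.pi * x / 2)
  rw [Real.norm_eq_abs, abs_mul, abs_two]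
  calc 2 * |Real.sin (2 * Real.pi * x / 2)| ≤ 2 * |2 * Real.pi * x / 2| := by linarith
    _ = 2 * Real.pi * |x| := by
      rw [abs_div, abs_mul, abs_mul, abs_two, abs_of_pos Real.pi_pos]
      ring

variable {A : Finset ℕ} {N : ℕ}

theorem sum_balanced (hA : A ⊆ range N) : ∑ n ∈ range N, balanced A N n = 0 := by
  rcases Nat.eq_zero_or_pos N with rfl | hN
  · simp
  simp only [balanced, sum_sub_distrib, sum_boole, sum_const, card_range, nsmul_eq_mul,
    filter_mem_eq_inter, inter_eq_right.2 hA]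
  rw [mul_div_cancel₀ _ (Nat.cast_ne_zero.2 hN.ne'), sub_self]

theorem abs_balanced_le (hA : A ⊆ range N) (n : ℕ) : |balanced A N n| ≤ 1 := by
  have h1 : (#A : ℝ) / N ≤ 1 := div_le_one_of_le₀
    (by exact_mod_cast (card_le_card hA).trans_eq (card_range N)) (Nat.cast_nonneg N)
  have h0 : (0 : ℝ) ≤ (#A : ℝ) / N := by positivity
  rw [balanced, abs_le]
  split_ifs <;> constructor <;> linarith

/-- A large exponential sum of the balanced function. -/
theorem exists_large_expSum (hA : A ⊆ range N) (h3 : ThreeAPFree (A : Set ℕ))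
    (hbig : 4 * (N : ℝ) < (#A : ℝ) ^ 2) :
    ∃ θ, (#A : ℝ) ^ 2 / (12 * N) ≤ ‖expSum N (balanced A N) θ‖ := by
  by_contra hall
  push Not at hall
  have hA0 : (0 : ℝ) < #A := by
    refine lt_of_le_of_ne (Nat.cast_nonneg _) fun h => ?_
    rw [← h] at hbig
    linarith [show (0 : ℝ) ≤ N from Nat.cast_nonneg N, sq (0 : ℝ)]
  have hN0 : (0 : ℝ) < N := by
    have := (card_le_card hA).trans_eq (card_range N)
    exact lt_of_lt_of_le hA0 (Nat.cast_le.2 this)
  obtain ⟨α, hα⟩ : ∃ α : ℝ, α = (#A : ℝ) / N := ⟨_, rfl⟩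
  have hα0 : 0 ≤ α := by rw [hα]; positivity
  have hα1 : α ≤ 1 := by
    rw [hα, div_le_one hN0]
    exact_mod_cast (card_le_card hA).trans_eq (card_range N)
  obtain ⟨ind, hind⟩ : ∃ F : ℕ → ℝ, F = fun n => if n ∈ A then 1 else 0 := ⟨_, rfl⟩
  obtain ⟨one, hone⟩ : ∃ F : ℕ → ℝ, F = fun _ => 1 := ⟨_, rfl⟩
  have hf : balanced A N = fun n => ind n - α * one n := by
    funext n
    simp [balanced, hind, hone, hα]
  have hM : ∀ θ, ‖expSum N (balanced A N) θ‖ ≤ (#A : ℝ) ^ 2 / (12 * N) := fun θ => (hall θ).le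
  have hsq : ∑ n ∈ range N, ind n ^ 2 = α * N ∧ ∑ n ∈ range N, one n ^ 2 = N := by
    refine ⟨?_, by simp [hone]⟩
    rw [hα, div_mul_cancel₀ _ hN0.ne']
    simp [hind, inter_eq_right.2 hA]
  -- the only solutions are the trivial ones
  have hAAA : triple N ind ind ind ≤ #A := by
    have e : triple N ind ind ind = ∑ a ∈ range N, ind a := by
      refine sum_congr rfl fun a ha => ?_
      rw [sum_eq_single a (fun b _ hb => sum_eq_zero fun c _ => ?_) (fun h => absurd ha h),
        sum_eq_single a (fun c _ hc => if_neg (by omega)) (fun h => absurd ha h)]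
      · rw [if_pos (by ring), hind]
        simp only
        split_ifs <;> norm_num
      · split_ifs with h
        · simp only [hind]
          split_ifs with h1 h2 h3' <;> try norm_num
          exact hb (h3 h1 h2 h3' (by omega)).symm
        · rfl
    rw [e]
    simp [hind, inter_eq_right.2 hA]
  -- telescoping
  have lin1 : triple N (balanced A N) ind ind =
      triple N ind ind ind - α * triple N one ind ind := by
    simp only [triple, hf, mul_sum, ← sum_sub_distrib]
    exact sum_congr rfl fun a _ => sum_congr rfl fun b _ => sum_congr rfl fun c _ => by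
      split_ifs <;> ring
  have lin2 : triple N one (balanced A N) ind =
      triple N one ind ind - α * triple N one one ind := by
    simp only [triple, hf, mul_sum, ← sum_sub_distrib]
    exact sum_congr rfl fun a _ => sum_congr rfl fun b _ => sum_congr rfl fun c _ => by
      split_ifs <;> ring
  have lin3 : triple N one one (balanced A N) =
      triple N one one ind - α * triple N one one one := by
    simp only [triple, hf, mul_sum, ← sum_sub_distrib]
    exact sum_congr rfl fun a _ => sum_congr rfl fun b _ => sum_congr rfl fun c _ => by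
      split_ifs <;> ring
  have b1 := (abs_le.1 (abs_triple_le hM ind ind).1).1
  have b2 := (abs_le.1 (abs_triple_le hM one ind).2.1).1
  have b3 := (abs_le.1 (abs_triple_le hM one one).2.2).1
  rw [hsq.1] at b1 b2
  rw [hsq.2] at b2 b3
  have h111 : (N : ℝ) ^ 2 / 2 ≤ triple N one one one := hone ▸ sq_half_le_triple_one N
  set M := (#A : ℝ) ^ 2 / (12 * N) with hMdef
  have hM0 : 0 ≤ M := by positivity
  have hAα : (#A : ℝ) = α * N := by rw [hα, div_mul_cancel₀ _ hN0.ne']
  have hMN : M * N = α ^ 2 * N ^ 2 / 12 := by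
    rw [hMdef, hAα]
    field_simp
  have k2 := mul_le_mul_of_nonneg_left b2 hα0
  have k3 := mul_le_mul_of_nonneg_left b3 (sq_nonneg α)
  have k4 := mul_le_mul_of_nonneg_left h111 (pow_nonneg hα0 3)
  have k5 : α * (M * ((N + α * N) / 2)) ≤ M * (α * N) := by
    nlinarith [mul_le_mul_of_nonneg_left hα1 (mul_nonneg (mul_nonneg hα0 hM0) hN0.le)]
  have k6 : α ^ 2 * (M * ((N + N) / 2)) ≤ M * (α * N) := by
    nlinarith [mul_le_mul_of_nonneg_left hα1 (mul_nonneg (mul_nonneg hα0 hM0) hN0.le)]
  have e2 : α * triple N one (balanced A N) ind =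
      α * triple N one ind ind - α ^ 2 * triple N one one ind := by rw [lin2]; ring
  have e3 : α ^ 2 * triple N one one (balanced A N) =
      α ^ 2 * triple N one one ind - α ^ 3 * triple N one one one := by rw [lin3]; ring
  have h7 : 4 < α ^ 2 * N := by
    rw [hAα] at hbig
    nlinarith [sq_nonneg α]
  have h8 : α * N * 4 < α * N * (α ^ 2 * N) :=
    mul_lt_mul_of_pos_left h7 (hAα ▸ hA0)
  linarith [show M * (α * N) = α * (M * N) by ring, show α * (M * N) = α ^ 3 * N ^ 2 / 12 by
    rw [hMN]; ring]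

/-- The points of a progression of difference `d`, cut into pieces of length `L`. -/
def piece (d L : ℕ) (k : ℕ × ℕ) : Finset ℕ := (range L).image fun j => k.1 + d * (L * k.2 + j)

/-- **The density increment.** -/
theorem exists_increment (hA : A ⊆ range N) (h3 : ThreeAPFree (A : Set ℕ)) (hN : 0 < N)
    {L : ℕ} (hL1 : 1 ≤ L) (hbig : 4 * (N : ℝ) < (#A : ℝ) ^ 2)
    (hL : (L : ℝ) ≤ ((#A : ℝ) / N) ^ 3 * Real.sqrt N / 256) :
    ∃ A' : Finset ℕ, A' ⊆ range L ∧ ThreeAPFree (A' : Set ℕ) ∧
      ((#A : ℝ) / N + ((#A : ℝ) / N) ^ 2 / 96) * L ≤ #A' := by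
  classical
  obtain ⟨θ, hθ⟩ := exists_large_expSum hA h3 hbig
  have hN0 : (0 : ℝ) < N := Nat.cast_pos.2 hN
  obtain ⟨α, hαdef⟩ : ∃ α : ℝ, α = (#A : ℝ) / N := ⟨_, rfl⟩
  rw [← hαdef] at hL ⊢
  have hA0 : (0 : ℝ) < #A := by
    refine lt_of_le_of_ne (Nat.cast_nonneg _) fun h => ?_
    rw [← h] at hbig
    linarith [sq (0 : ℝ)]
  have hα0 : 0 < α := by rw [hαdef]; positivity
  have hα1 : α ≤ 1 := by
    rw [hαdef, div_le_one hN0]
    exact_mod_cast (card_le_card hA).trans_eq (card_range N)
  have hL0 : (1 : ℝ) ≤ L := Nat.one_le_cast.2 hL1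
  obtain ⟨Q, hQdef⟩ : ∃ Q : ℕ, Q = ⌈200 * (L : ℝ) / α ^ 2⌉₊ := ⟨_, rfl⟩
  have hQ1 : 200 * (L : ℝ) / α ^ 2 ≤ Q := hQdef ▸ Nat.le_ceil _
  have hQ0 : 0 < Q := Nat.cast_pos.1 (lt_of_lt_of_le (by positivity) hQ1)
  obtain ⟨d, hd0, hdQ, hd⟩ := Real.exists_nat_abs_mul_sub_round_le θ hQ0
  obtain ⟨key, hkey⟩ : ∃ key : ℕ → ℕ × ℕ, key = fun n => (n % d, n / d / L) := ⟨_, rfl⟩
  set f := balanced A N with hf
  set S : ℕ × ℕ → ℝ := fun k => ∑ n ∈ (range N).filter (fun n => key n = k), f n with hS
  set keys := (range N).image key with hkeys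
  have hmaps : ∀ n ∈ range N, key n ∈ keys := fun n hn => mem_image_of_mem _ hn
  have hfib : ∀ k n, key n = k → n ∈ piece d L k := fun k n hn => by
    rw [hkey] at hn
    rw [piece, mem_image]
    refine ⟨n / d % L, mem_range.2 (Nat.mod_lt _ hL1), ?_⟩
    rw [← hn]
    simp only
    rw [Nat.div_add_mod, Nat.mod_add_div]
  have hcard : ∀ k, #((range N).filter fun n => key n = k) ≤ L := fun k =>
    ((card_le_card fun n hn => hfib k n (mem_filter.1 hn).2).trans card_image_le).trans_eq
      (card_range L)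
  -- the character is nearly constant on each piece
  have hδ : (L : ℝ) * |(d : ℝ) * θ - round ((d : ℝ) * θ)| ≤ α ^ 2 / 200 := by
    refine (mul_le_mul_of_nonneg_left hd (by positivity)).trans ?_
    rw [mul_one_div, div_le_div_iff₀ (by positivity) (by norm_num)]
    rw [div_le_iff₀ (by positivity)] at hQ1
    nlinarith [sq_nonneg α]
  have hclose : ∀ k : ℕ × ℕ, ∀ n, key n = k →
      ‖eAdd ((n : ℝ) * θ) - eAdd (((k.1 + d * (L * k.2) : ℕ) : ℝ) * θ)‖ ≤ α ^ 2 / 24 := by
    intro k n hn
    obtain ⟨j, hj, rfl⟩ := mem_image.1 (hfib k n hn)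
    rw [mem_range] at hj
    set m := round ((d : ℝ) * θ) with hm
    rw [show ((k.1 + d * (L * k.2 + j) : ℕ) : ℝ) * θ = ((k.1 + d * (L * k.2) : ℕ) : ℝ) * θ +
      ((j : ℝ) * ((d : ℝ) * θ - m) + ((j * m : ℤ) : ℝ)) by push_cast; ring, eAdd_add,
      eAdd_add_intCast, ← mul_sub_one, norm_mul, norm_eAdd, one_mul]
    refine (norm_eAdd_sub_one_le_abs _).trans ?_
    rw [abs_mul, Nat.abs_cast]
    have h1 : (j : ℝ) * |(d : ℝ) * θ - m| ≤ α ^ 2 / 200 :=
      (mul_le_mul_of_nonneg_right (Nat.cast_le.2 hj.le) (abs_nonneg _)).trans hδ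
    have h2 := mul_le_mul Real.pi_le_four h1 (by positivity) (by norm_num)
    nlinarith [Real.pi_pos, sq_nonneg α]
  have hsum : α ^ 2 / 24 * N ≤ ∑ k ∈ keys, (|S k| + S k) := by
    have h0 : ∑ k ∈ keys, S k = 0 := by
      rw [hS, sum_fiberwise_of_maps_to hmaps]
      exact sum_balanced hA
    rw [sum_add_distrib, h0, add_zero]
    have h1 : ‖expSum N f θ‖ ≤ ∑ k ∈ keys, |S k| + α ^ 2 / 24 * N := by
      have e : expSum N f θ = ∑ k ∈ keys, ((S k : ℂ) * eAdd (((k.1 + d * (L * k.2) : ℕ) : ℝ) * θ) +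
          ∑ n ∈ (range N).filter (fun n => key n = k), (f n : ℂ) *
            (eAdd ((n : ℝ) * θ) - eAdd (((k.1 + d * (L * k.2) : ℕ) : ℝ) * θ))) := by
        rw [expSum, ← sum_fiberwise_of_maps_to hmaps]
        refine sum_congr rfl fun k _ => ?_
        simp only [hS, Complex.ofReal_sum, sum_mul, mul_sub, sum_sub_distrib]
        ring
      rw [e]
      refine (norm_sum_le _ _).trans ((sum_le_sum (g := fun k => |S k| +
        (#((range N).filter fun n => key n = k) : ℝ) * (α ^ 2 / 24)) fun k _ => ?_).trans ?_)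
      · refine (norm_add_le _ _).trans (add_le_add (le_of_eq ?_) ?_)
        · rw [norm_mul, norm_eAdd, mul_one, Complex.norm_real, Real.norm_eq_abs]
        · refine (norm_sum_le _ _).trans
            ((sum_le_card_nsmul _ _ (α ^ 2 / 24) fun n hn => ?_).trans_eq (nsmul_eq_mul _ _))
          rw [norm_mul, Complex.norm_real, Real.norm_eq_abs]
          exact (mul_le_of_le_one_left (norm_nonneg _) (abs_balanced_le hA n)).trans
            (hclose k n (mem_filter.1 hn).2)
      · rw [sum_add_distrib, ← sum_mul, ← Nat.cast_sum, ← card_eq_sum_card_fiberwise hmaps,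
          card_range, mul_comm (N : ℝ)]
    have h2 : (#A : ℝ) ^ 2 / (12 * N) = α ^ 2 / 12 * N := by
      rw [hαdef]
      field_simp
    linarith
  obtain ⟨full, hfull⟩ : ∃ full : Finset (ℕ × ℕ),
      full = keys.filter fun k => k.1 + d * (L * k.2 + (L - 1)) < N := ⟨_, rfl⟩
  have hfullcard : ∀ k ∈ full, (range N).filter (fun n => key n = k) = piece d L k ∧
      #(piece d L k) = L := by
    intro k hk
    rw [hfull, mem_filter, hkeys, mem_image] at hk
    obtain ⟨⟨n₀, -, hn₀⟩, hlt⟩ := hk
    have hk1 : k.1 < d := by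
      rw [← hn₀, hkey]
      exact Nat.mod_lt _ hd0
    refine ⟨Subset.antisymm (fun n hn => hfib k n (mem_filter.1 hn).2) fun n hn => ?_, ?_⟩
    · rw [piece, mem_image] at hn
      obtain ⟨j, hj, rfl⟩ := hn
      rw [mem_range] at hj
      rw [mem_filter, mem_range, hkey]
      refine ⟨?_, Prod.ext ?_ ?_⟩
      · have : d * (L * k.2 + j) ≤ d * (L * k.2 + (L - 1)) := Nat.mul_le_mul_left d (by omega)
        omega
      · simp only
        rw [Nat.add_mul_mod_self_left, Nat.mod_eq_of_lt hk1]
      · simp only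
        rw [Nat.add_mul_div_left _ _ hd0, Nat.div_eq_of_lt hk1, zero_add,
          Nat.mul_add_div (by omega), Nat.div_eq_of_lt hj, add_zero]
    · rw [piece, card_image_of_injective _ fun i j h => ?_, card_range]
      exact Nat.add_left_cancel (Nat.eq_of_mul_eq_mul_left hd0 (Nat.add_left_cancel h))
  have hshort : #(keys.filter fun k => ¬k.1 + d * (L * k.2 + (L - 1)) < N) ≤ d := by
    refine (card_le_card_of_injOn Prod.fst (t := range d) (fun k hk => ?_) ?_).trans_eq
      (card_range d)
    · simp only [mem_coe, mem_filter, hkeys, mem_image] at hk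
      obtain ⟨⟨n, -, rfl⟩, -⟩ := hk
      rw [mem_coe, mem_range, hkey]
      exact Nat.mod_lt _ hd0
    · have claim : ∀ k k' : ℕ × ℕ, ¬k.1 + d * (L * k.2 + (L - 1)) < N →
          (∃ n ∈ range N, key n = k') → k.1 = k'.1 → k.2 < k'.2 → False := by
        intro k k' hk hk' h hlt
        obtain ⟨n, hn, hnk⟩ := hk'
        obtain ⟨j, hj, rfl⟩ := mem_image.1 (hfib k' n hnk)
        rw [mem_range] at hn
        have h1 : d * (L * k.2 + (L - 1)) ≤ d * (L * k'.2 + j) := Nat.mul_le_mul_left d (by
          have := Nat.mul_le_mul_left L (show k.2 + 1 ≤ k'.2 by omega)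
          rw [mul_add] at this
          omega)
        omega
      intro k hk k' hk' h
      simp only [mem_coe, mem_filter, hkeys, mem_image] at hk hk'
      rcases lt_trichotomy k.2 k'.2 with hlt | heq | hlt
      · exact (claim k k' hk.2 hk'.1 h hlt).elim
      · exact Prod.ext h heq
      · exact (claim k' k hk'.2 hk.1 h.symm hlt).elim
  have hSle : ∀ k, |S k| + S k ≤ 2 * L := fun k => by
    have h1 : |S k| ≤ L := by
      refine (abs_sum_le_sum_abs _ _).trans ((sum_le_card_nsmul _ _ 1 fun n _ =>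
        abs_balanced_le hA n).trans ?_)
      rw [nsmul_eq_mul, mul_one, Nat.cast_le]
      exact hcard k
    linarith [le_abs_self (S k)]
  have hQL : 2 * (L : ℝ) * d ≤ α ^ 2 * N / 48 := by
    have h1 : (d : ℝ) ≤ 201 * L / α ^ 2 := by
      refine (Nat.cast_le.2 hdQ).trans ((hQdef ▸ (Nat.ceil_lt_add_one (by positivity)).le).trans ?_)
      rw [div_add_one (by positivity), div_le_div_iff_of_pos_right (by positivity)]
      nlinarith
    rw [le_div_iff₀ (show (0 : ℝ) < α ^ 2 by positivity)] at h1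
    refine le_of_mul_le_mul_right ?_ (show (0 : ℝ) < α ^ 2 by positivity)
    have hL2 : (L : ℝ) ^ 2 ≤ α ^ 6 * N / 65536 := by
      refine (pow_le_pow_left₀ (by positivity) hL 2).trans_eq ?_
      rw [div_pow, mul_pow, Real.sq_sqrt hN0.le]
      ring
    have h6 : α ^ 6 ≤ α ^ 4 := pow_le_pow_of_le_one hα0.le hα1 (by norm_num)
    nlinarith [mul_le_mul_of_nonneg_right h6 hN0.le, pow_pos hα0 4]
  have hgood : α ^ 2 / 48 * N ≤ ∑ k ∈ full, (|S k| + S k) := by
    rw [← sum_filter_add_sum_filter_not keys (fun k => k.1 + d * (L * k.2 + (L - 1)) < N),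
      ← hfull] at hsum
    have := (sum_le_card_nsmul (keys.filter fun k => ¬k.1 + d * (L * k.2 + (L - 1)) < N)
      (fun k => |S k| + S k) (2 * L) fun k _ => hSle k).trans
      (nsmul_le_nsmul_left (by positivity) hshort)
    rw [nsmul_eq_mul] at this
    linarith
  have hfullN : (#full : ℝ) * L ≤ N := by
    have : #full * L ≤ N := by
      calc #full * L = ∑ k ∈ full, #((range N).filter fun n => key n = k) := by
            rw [← smul_eq_mul, ← sum_const]
            exact sum_congr rfl fun k hk => by rw [(hfullcard k hk).1, (hfullcard k hk).2]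
        _ ≤ ∑ k ∈ keys, #((range N).filter fun n => key n = k) :=
            sum_le_sum_of_subset (hfull ▸ filter_subset _ _)
        _ = N := by rw [← card_eq_sum_card_fiberwise hmaps, card_range]
    exact_mod_cast this
  obtain ⟨k, hk, hSk⟩ : ∃ k ∈ full, α ^ 2 / 48 * L ≤ |S k| + S k := by
    by_contra hall
    push Not at hall
    have hne : full.Nonempty := nonempty_iff_ne_empty.2 fun h => by
      rw [h, sum_empty] at hgood
      have : 0 < α ^ 2 / 48 * (N : ℝ) := by positivity
      linarith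
    have h1 := sum_lt_sum_of_nonempty hne hall
    rw [sum_const, nsmul_eq_mul] at h1
    have := mul_le_mul_of_nonneg_left hfullN (show 0 ≤ α ^ 2 / 48 by positivity)
    linarith
  obtain ⟨hpk, hLk⟩ := hfullcard k hk
  have hSpos : α ^ 2 / 96 * L ≤ S k := by
    rcases le_or_gt 0 (S k) with h | h
    · rw [abs_of_nonneg h] at hSk
      linarith
    · rw [abs_of_neg h, neg_add_cancel] at hSk
      have : 0 < α ^ 2 / 48 * (L : ℝ) := by positivity
      linarith
  refine ⟨(range L).filter fun j => k.1 + d * (L * k.2 + j) ∈ A, filter_subset _ _, ?_, ?_⟩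
  · intro a ha b hb c hc hsum'
    rw [mem_coe, mem_filter] at ha hb hc
    have h := h3 ha.2 hb.2 hc.2 (by
      calc k.1 + d * (L * k.2 + a) + (k.1 + d * (L * k.2 + c))
          = 2 * k.1 + 2 * d * (L * k.2) + d * (a + c) := by ring
        _ = 2 * k.1 + 2 * d * (L * k.2) + d * (b + b) := by rw [hsum']
        _ = _ := by ring)
    exact Nat.add_left_cancel (Nat.eq_of_mul_eq_mul_left hd0 (Nat.add_left_cancel h))
  · have e : S k = (#((range L).filter fun j => k.1 + d * (L * k.2 + j) ∈ A) : ℝ) - α * L := by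
      simp only [hS, hf]
      rw [hpk]
      simp only [balanced, ← hαdef]
      rw [sum_sub_distrib, sum_const, hLk, nsmul_eq_mul, piece,
        sum_image fun i _ j _ h =>
          Nat.add_left_cancel (Nat.eq_of_mul_eq_mul_left hd0 (Nat.add_left_cancel h)),
        sum_boole, mul_comm α]
    rw [add_mul]
    linarith

end FA.RothProgressions
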